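import Mathlib

set_option autoImplicit false

open UpperHalfPlane Filter Topology Function

open scoped MatrixGroups Manifold Modular

namespace Fermat.Agent.S21.H24

local notation "𝕢" => Periodic.qParam

/-- Dichotomy on the standard fundamental domain: a continuous function on `ℍ` with a limit at
`i∞` is bounded on `𝒟` either by one of its values or by the norm of its limit. -/
theorem exists_bound_fd_dichotomy (g : ℍ → ℂ) (hg : Continuous g) (L : ℂ)
    (hL : Tendsto g atImInfty (𝓝 L)) :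
    (∀ w ∈ 𝒟, ‖g w‖ ≤ ‖L‖) ∨ (∃ w₀ : ℍ, ∀ w ∈ 𝒟, ‖g w‖ ≤ ‖g w₀‖) := by
  by_cases hb : ∀ w ∈ 𝒟, ‖g w‖ ≤ ‖L‖
  · exact Or.inl hb
  · right
    simp only [not_forall, not_le] at hb
    obtain ⟨w₁, hw₁, hlt⟩ := hb
    have hev : ∀ᶠ w in atImInfty, ‖g w‖ < ‖g w₁‖ := hL.norm.eventually_lt_const hlt
    obtain ⟨A, hA⟩ := (atImInfty_mem _).mp hev
    have hw₁A : w₁.im ≤ A := by
      by_contra hcon
      have h' : ‖g w₁‖ < ‖g w₁‖ := hA w₁ (not_le.mp hcon).le
      exact lt_irrefl _ h'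
    have hne : (ModularGroup.truncatedFundamentalDomain A).Nonempty := ⟨w₁, hw₁, hw₁A⟩
    obtain ⟨w₀, hw₀, hmax⟩ := (ModularGroup.isCompact_truncatedFundamentalDomain A).exists_isMaxOn
      hne hg.norm.continuousOn
    refine ⟨w₀, fun w hw => ?_⟩
    rcases le_total w.im A with h | h
    · exact hmax (show w ∈ ModularGroup.truncatedFundamentalDomain A from ⟨hw, h⟩)
    · exact (hA w h).le.trans (hmax (show w₁ ∈ ModularGroup.truncatedFundamentalDomain A
        from ⟨hw₁, hw₁A⟩))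

/-- A holomorphic function on `ℍ` whose norm attains a global maximum is constant. -/
theorem eq_const_of_norm_le (G : ℍ → ℂ) (hG : MDiff G) (z₀ : ℍ) (h : ∀ z, ‖G z‖ ≤ ‖G z₀‖) :
    ∀ z, G z = G z₀ := by
  intro z
  have hmax : IsMaxOn (norm ∘ G) Set.univ z₀ := fun w _ => h w
  exact MDifferentiableOn.eqOn_of_isPreconnected_of_isMaxOn_norm hG.mdifferentiableOn
    isPreconnected_univ isOpen_univ (Set.mem_univ z₀) hmax (Set.mem_univ z)

/-- A holomorphic, periodic function on `ℍ` with a limit `L` at `i∞` whose norm is bounded by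
`‖L‖` is constant. -/
theorem eq_const_of_norm_le_limit (g : ℍ → ℂ) (hg : MDiff g) (h : ℝ) (hh : 0 < h)
    (hper : Periodic (g ∘ ofComplex) h) (L : ℂ) (hL : Tendsto g atImInfty (𝓝 L))
    (hle : ∀ z, ‖g z‖ ≤ ‖L‖) : ∀ z, g z = L := by
  have hbdd : IsBoundedAtImInfty g := hL.isBigO_one ℝ
  have hdiff := differentiableOn_cuspFunction_ball hh hper hg hbdd
  have hana := analyticAt_cuspFunction_zero hh hper hg hbdd
  have h0 : cuspFunction h g 0 = L := by
    rw [cuspFunction_apply_zero hh hana hper]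
    exact hL.limUnder_eq
  have hmax : IsMaxOn (norm ∘ cuspFunction h g) (Metric.ball 0 1) 0 := by
    intro q hq
    show ‖cuspFunction h g q‖ ≤ ‖cuspFunction h g 0‖
    rw [h0]
    rcases eq_or_ne q 0 with rfl | hq0
    · rw [h0]
    · have hq1 : ‖q‖ < 1 := by simpa using hq
      have him := Periodic.im_invQParam_pos_of_norm_lt_one hh hq1 hq0
      have := eq_cuspFunction (f := g) ⟨_, him⟩ hh.ne' hper
      rw [show ((⟨Periodic.invQParam h q, him⟩ : ℍ) : ℂ) = Periodic.invQParam h q from rfl,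
        Periodic.qParam_right_inv hh.ne' hq0] at this
      rw [this]
      exact hle _
  have hconst := Complex.eqOn_of_isPreconnected_of_isMaxOn_norm
    (convex_ball (0 : ℂ) 1).isPreconnected Metric.isOpen_ball hdiff
    (Metric.mem_ball_self one_pos) hmax
  intro z
  have hz : 𝕢 h z ∈ Metric.ball (0 : ℂ) 1 := by
    simpa using Periodic.norm_qParam_lt_one hh z.im_pos
  have := hconst hz
  simp only [const_apply] at this
  rw [eq_cuspFunction z hh.ne' hper, h0] at this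
  exact this

/-- **MAXMOD**: a holomorphic function on `ℍ` whose norm is invariant under a finite index
subgroup `Γ` of `SL(2, ℤ)`, and all of whose `SL(2, ℤ)`-translates are periodic with a limit at
`i∞`, is constant. -/
theorem eq_const_of_norm_invariant (Γ : Subgroup SL(2, ℤ)) [Γ.FiniteIndex] (G : ℍ → ℂ)
    (hG : MDiff G) (hinv : ∀ γ ∈ Γ, ∀ z : ℍ, ‖G (γ • z)‖ = ‖G z‖)
    (hper : ∀ δ : SL(2, ℤ), ∃ h : ℝ, 0 < h ∧ Periodic ((fun w : ℍ => G (δ • w)) ∘ ofComplex) h)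
    (hlim : ∀ δ : SL(2, ℤ), ∃ L : ℂ, Tendsto (fun w : ℍ => G (δ • w)) atImInfty (𝓝 L)) :
    ∃ c : ℂ, ∀ z : ℍ, G z = c := by
  classical
  have hGc : Continuous G := hG.continuous
  have hsmuld : ∀ δ : SL(2, ℤ), MDiff (fun w : ℍ => G (δ • w)) := fun δ =>
    hG.comp (mdifferentiable_smul (g := (δ : GL (Fin 2) ℝ)) (by simp))
  have hsmulc : ∀ δ : SL(2, ℤ), Continuous (fun w : ℍ => G (δ • w)) := fun δ =>
    (hsmuld δ).continuous
  -- bound on each translate of the fundamental domain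
  have hdich : ∀ δ : SL(2, ℤ), ∃ m : ℝ, (∀ w ∈ 𝒟, ‖G (δ • w)‖ ≤ m) ∧
      ((∃ z₀ : ℍ, m = ‖G z₀‖) ∨
        (∃ L : ℂ, Tendsto (fun w : ℍ => G (δ • w)) atImInfty (𝓝 L) ∧ m = ‖L‖)) := by
    intro δ
    obtain ⟨L, hL⟩ := hlim δ
    rcases exists_bound_fd_dichotomy (fun w : ℍ => G (δ • w)) (hsmulc δ) L hL with h | ⟨w₀, h⟩
    · exact ⟨‖L‖, h, Or.inr ⟨L, hL, rfl⟩⟩
    · exact ⟨‖G (δ • w₀)‖, h, Or.inl ⟨δ • w₀, rfl⟩⟩
  choose m hm hm' using hdich
  let _inst : Fintype (SL(2, ℤ) ⧸ Γ) := Subgroup.fintypeQuotientOfFiniteIndex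
  -- representative `δ_x = (out x)⁻¹`
  let rep : SL(2, ℤ) ⧸ Γ → SL(2, ℤ) := fun x => (Quotient.out x)⁻¹
  obtain ⟨x₀, -, hx₀⟩ := Finset.exists_max_image (Finset.univ : Finset (SL(2, ℤ) ⧸ Γ))
    (fun x => m (rep x)) ⟨(QuotientGroup.mk 1 : SL(2, ℤ) ⧸ Γ), Finset.mem_univ _⟩
  have hglob : ∀ z : ℍ, ‖G z‖ ≤ m (rep x₀) := by
    intro z
    obtain ⟨g, hgz⟩ := ModularGroup.exists_smul_mem_fd z
    set x : SL(2, ℤ) ⧸ Γ := QuotientGroup.mk g with hx
    have hmem : (Quotient.out x)⁻¹ * g ∈ Γ := by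
      have : (QuotientGroup.mk (Quotient.out x) : SL(2, ℤ) ⧸ Γ) = QuotientGroup.mk g := by
        rw [hx]
        exact Quotient.out_eq _
      exact QuotientGroup.eq.mp this
    have hz : z = ((Quotient.out x)⁻¹ * g)⁻¹ • (rep x • (g • z)) := by
      simp only [rep]
      rw [← mul_smul, ← mul_smul]
      have : ((Quotient.out x)⁻¹ * g)⁻¹ * (Quotient.out x)⁻¹ * g = 1 := by group
      rw [this, one_smul]
    calc ‖G z‖ = ‖G (((Quotient.out x)⁻¹ * g)⁻¹ • (rep x • (g • z)))‖ := by rw [← hz]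
      _ = ‖G (rep x • (g • z))‖ := hinv _ (Γ.inv_mem hmem) _
      _ ≤ m (rep x) := hm (rep x) (g • z) hgz
      _ ≤ m (rep x₀) := hx₀ x (Finset.mem_univ _)
  rcases hm' (rep x₀) with ⟨z₀, hz₀⟩ | ⟨L, hL, hmL⟩
  · exact ⟨G z₀, eq_const_of_norm_le G hG z₀ (fun z => hz₀ ▸ hglob z)⟩
  · obtain ⟨h, hh, hperδ⟩ := hper (rep x₀)
    have hconst := eq_const_of_norm_le_limit (fun w : ℍ => G (rep x₀ • w)) (hsmuld _) h hh hperδ
      L hL (fun z => hmL ▸ hglob _)
    refine ⟨L, fun z => ?_⟩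
    have : G (rep x₀ • ((rep x₀)⁻¹ • z)) = L := hconst ((rep x₀)⁻¹ • z)
    rwa [← mul_smul, mul_inv_cancel, one_smul] at this

end Fermat.Agent.S21.H24
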