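import Mathlib
import Fermat.Prelude.Def_ModularCurve_PeriodHomPair

set_option autoImplicit false

open UpperHalfPlane CongruenceSubgroup Filter Topology ModularCurve ModularCurve.Period

open scoped MatrixGroups

namespace Fermat.Agent.S21.H24

/-- A matrix of `SL(2, ℤ)` fixing a vector with coprime entries is conjugate to a power of `T`. -/
theorem exists_conj_T_zpow_of_fixed (γ : SL(2, ℤ)) (x y : ℤ) (hxy : IsCoprime x y)
    (h0 : γ 0 0 * x + γ 0 1 * y = x) (h1 : γ 1 0 * x + γ 1 1 * y = y) :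
    ∃ (δ : SL(2, ℤ)) (m : ℤ), γ = δ * ModularGroup.T ^ m * δ⁻¹ := by
  obtain ⟨δ, hδ0, hδ1⟩ := hxy.exists_SL2_col 0
  have hdet : δ 0 0 * δ 1 1 - δ 0 1 * δ 1 0 = 1 := by
    have := δ.det_coe
    rw [Matrix.det_fin_two] at this
    exact this
  have hdetγ : γ 0 0 * γ 1 1 - γ 0 1 * γ 1 0 = 1 := by
    have := γ.det_coe
    rw [Matrix.det_fin_two] at this
    exact this
  rw [← hδ0, ← hδ1] at h0 h1
  -- the conjugate `δ⁻¹ γ δ`
  set m : ℤ := (δ⁻¹ * γ * δ) 0 1 with hm
  refine ⟨δ, m, ?_⟩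
  have key : δ⁻¹ * γ * δ = ModularGroup.T ^ m := by
    ext i j
    rw [ModularGroup.coe_T_zpow]
    have e00 : (δ⁻¹ * γ * δ) 0 0 = 1 := by
      simp only [Matrix.SpecialLinearGroup.coe_mul, Matrix.SpecialLinearGroup.coe_inv,
        Matrix.adjugate_fin_two, Matrix.mul_apply, Fin.sum_univ_two, Matrix.of_apply,
        Matrix.cons_val', Matrix.cons_val_zero, Matrix.cons_val_one, Matrix.empty_val',
        Matrix.cons_val_fin_one]
      linear_combination (δ 1 1) * h0 - (δ 0 1) * h1 + hdet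
    have e10 : (δ⁻¹ * γ * δ) 1 0 = 0 := by
      simp only [Matrix.SpecialLinearGroup.coe_mul, Matrix.SpecialLinearGroup.coe_inv,
        Matrix.adjugate_fin_two, Matrix.mul_apply, Fin.sum_univ_two, Matrix.of_apply,
        Matrix.cons_val', Matrix.cons_val_zero, Matrix.cons_val_one, Matrix.empty_val',
        Matrix.cons_val_fin_one]
      linear_combination (-(δ 1 0)) * h0 + (δ 0 0) * h1
    have hdet' : (δ⁻¹ * γ * δ) 0 0 * (δ⁻¹ * γ * δ) 1 1
        - (δ⁻¹ * γ * δ) 0 1 * (δ⁻¹ * γ * δ) 1 0 = 1 := by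
      have := (δ⁻¹ * γ * δ).det_coe
      rw [Matrix.det_fin_two] at this
      exact this
    have e11 : (δ⁻¹ * γ * δ) 1 1 = 1 := by
      rw [e00, e10] at hdet'
      linarith
    fin_cases i <;> fin_cases j
    · simpa using e00
    · simp [hm]
    · simpa using e10
    · simpa using e11
  rw [← key]
  group

/-- Parabolic elements (and `±1`) of `SL(2, ℤ)` are, up to sign, conjugate to a power of `T`. -/
theorem exists_conj_T_zpow (γ : SL(2, ℤ))
    (h : (γ : Matrix (Fin 2) (Fin 2) ℤ).trace ^ 2 = 4) :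
    ∃ (δ : SL(2, ℤ)) (m : ℤ),
      γ = δ * ModularGroup.T ^ m * δ⁻¹ ∨ γ = -(δ * ModularGroup.T ^ m * δ⁻¹) := by
  -- reduce to trace `2`
  have main : ∀ γ : SL(2, ℤ), (γ : Matrix (Fin 2) (Fin 2) ℤ).trace = 2 →
      ∃ (δ : SL(2, ℤ)) (m : ℤ), γ = δ * ModularGroup.T ^ m * δ⁻¹ := by
    intro γ htr
    rw [Matrix.trace_fin_two] at htr
    have hdetγ : γ 0 0 * γ 1 1 - γ 0 1 * γ 1 0 = 1 := by
      have := γ.det_coe
      rw [Matrix.det_fin_two] at this
      exact this
    by_cases hb : γ 0 1 = 0 ∧ γ 0 0 = 1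
    · -- `γ = [[1, 0], [c, 1]]`, fixed vector `(0, 1)`
      obtain ⟨hb0, ha⟩ := hb
      have hd : γ 1 1 = 1 := by linarith
      exact exists_conj_T_zpow_of_fixed γ 0 1 (isCoprime_zero_left.mpr isUnit_one)
        (by rw [hb0]; ring) (by rw [hd]; ring)
    · -- fixed vector `(b, 1 - a) / gcd`
      set b := γ 0 1 with hbdef
      set a := γ 0 0 with hadef
      have hne : ¬ (b = 0 ∧ 1 - a = 0) := by
        intro hh
        exact hb ⟨hh.1, by linarith [hh.2]⟩
      have hg : (Int.gcd b (1 - a) : ℤ) ≠ 0 := by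
        intro hh
        have := Int.gcd_eq_zero_iff.mp (by exact_mod_cast hh)
        exact hne this
      obtain ⟨x, hx⟩ : ((Int.gcd b (1 - a) : ℤ)) ∣ b := Int.gcd_dvd_left _ _
      obtain ⟨y, hy⟩ : ((Int.gcd b (1 - a) : ℤ)) ∣ (1 - a) := Int.gcd_dvd_right _ _
      have hcop : IsCoprime x y := by
        obtain ⟨u, v, huv⟩ : ∃ u v : ℤ, (Int.gcd b (1 - a) : ℤ) = b * u + (1 - a) * v :=
          ⟨_, _, Int.gcd_eq_gcd_ab b (1 - a)⟩
        refine ⟨u, v, ?_⟩
        have : (Int.gcd b (1 - a) : ℤ) * (u * x + v * y) = (Int.gcd b (1 - a) : ℤ) * 1 := by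
          calc (Int.gcd b (1 - a) : ℤ) * (u * x + v * y)
              = ((Int.gcd b (1 - a) : ℤ) * x) * u + ((Int.gcd b (1 - a) : ℤ) * y) * v := by ring
            _ = b * u + (1 - a) * v := by rw [← hx, ← hy]
            _ = (Int.gcd b (1 - a) : ℤ) * 1 := by rw [← huv, mul_one]
        exact mul_left_cancel₀ hg this
      apply exists_conj_T_zpow_of_fixed γ x y hcop
      · apply mul_left_cancel₀ hg
        have : (Int.gcd b (1 - a) : ℤ) * (γ 0 0 * x + γ 0 1 * y)
            = γ 0 0 * ((Int.gcd b (1 - a) : ℤ) * x) + γ 0 1 * ((Int.gcd b (1 - a) : ℤ) * y) := by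
          ring
        rw [this, ← hx, ← hy]
        ring
      · apply mul_left_cancel₀ hg
        have : (Int.gcd b (1 - a) : ℤ) * (γ 1 0 * x + γ 1 1 * y)
            = γ 1 0 * ((Int.gcd b (1 - a) : ℤ) * x) + γ 1 1 * ((Int.gcd b (1 - a) : ℤ) * y) := by
          ring
        rw [this, ← hx, ← hy]
        linear_combination (-1 : ℤ) * hdetγ + htr
  have htr : (γ : Matrix (Fin 2) (Fin 2) ℤ).trace = 2 ∨ (γ : Matrix (Fin 2) (Fin 2) ℤ).trace = -2 := by
    have : ((γ : Matrix (Fin 2) (Fin 2) ℤ).trace - 2) * ((γ : Matrix (Fin 2) (Fin 2) ℤ).trace + 2) = 0 := by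
      linear_combination h
    rcases mul_eq_zero.mp this with h' | h'
    · left; linarith
    · right; linarith
  rcases htr with htr | htr
  · obtain ⟨δ, m, hδ⟩ := main γ htr
    exact ⟨δ, m, Or.inl hδ⟩
  · have : ((-γ : SL(2, ℤ)) : Matrix (Fin 2) (Fin 2) ℤ).trace = 2 := by
      rw [Matrix.SpecialLinearGroup.coe_neg, Matrix.trace_neg, htr]
      norm_num
    obtain ⟨δ, m, hδ⟩ := main (-γ) this
    refine ⟨δ, m, Or.inr ?_⟩
    rw [← hδ, neg_neg]


/-- Translation by a power of `T` preserves the filter `atImInfty`. -/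
theorem tendsto_T_zpow_smul_atImInfty (m : ℤ) :
    Tendsto (fun w : ℍ => ModularGroup.T ^ m • w) atImInfty atImInfty := by
  rw [atImInfty, tendsto_comap_iff]
  have : (UpperHalfPlane.im ∘ fun w : ℍ => ModularGroup.T ^ m • w) = UpperHalfPlane.im := by
    funext w
    simp only [Function.comp_apply]
    rw [modular_T_zpow_smul, UpperHalfPlane.vadd_im]
  rw [this]
  exact tendsto_comap

/-- The period of an equivariant primitive (with limits at all cusps) along a parabolic element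
vanishes. -/
theorem period_eq_zero_of_trace (N : ℕ) (f : CuspForm (Gamma0 N) 2) (F : ℍ → ℂ)
    (hF : HasEquivariantPrimitive N f F) (γ : Gamma0 N)
    (h : ((γ : SL(2, ℤ)) : Matrix (Fin 2) (Fin 2) ℤ).trace ^ 2 = 4) :
    hF.2.2.1.period γ = 0 := by
  obtain ⟨δ, m, hδ⟩ := exists_conj_T_zpow (γ : SL(2, ℤ)) h
  have key : ∀ w : ℍ, (γ : SL(2, ℤ)) • (δ • w) = δ • (ModularGroup.T ^ m • w) := by
    intro w
    rcases hδ with hδ | hδ
    · rw [hδ, ← mul_smul, ← mul_smul]
      congr 1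
      group
    · rw [hδ, ModularGroup.SL_neg_smul, ← mul_smul, ← mul_smul]
      congr 1
      group
  have hper : ∀ w : ℍ, F (δ • (ModularGroup.T ^ m • w)) - F (δ • w) = hF.2.2.1.period γ := by
    intro w
    rw [← key]
    exact hF.2.2.1.sub_eq_period γ (δ • w)
  obtain ⟨L, hL⟩ := hF.2.2.2 δ
  have h1 : Tendsto (fun w : ℍ => F (δ • (ModularGroup.T ^ m • w))) atImInfty (𝓝 L) :=
    hL.comp (tendsto_T_zpow_smul_atImInfty m)
  have h2 : Tendsto (fun w : ℍ => F (δ • (ModularGroup.T ^ m • w)) - F (δ • w)) atImInfty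
      (𝓝 (L - L)) := h1.sub hL
  have h3 : Tendsto (fun _ : ℍ => hF.2.2.1.period γ) atImInfty (𝓝 (L - L)) := by
    refine h2.congr ?_
    intro w
    exact hper w
  have := tendsto_nhds_unique h3 tendsto_const_nhds
  rw [← this, sub_self]

/-- **A3b**: the period homomorphism of an equivariant primitive is parabolic. -/
theorem periodHom_mem_parabolicHoms (N : ℕ) (f : CuspForm (Gamma0 N) 2) (F : ℍ → ℂ)
    (hF : HasEquivariantPrimitive N f F) :
    hF.2.2.1.periodHom ∈ parabolicHoms ℂ (Gamma0 N) ℂ := by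
  rw [mem_parabolicHoms_iff]
  intro γ hγ
  rw [IsEquivariantPrimitive.periodHom_apply]
  exact period_eq_zero_of_trace N f F hF γ hγ

/-- **A3c**: the period map takes values in the parabolic homomorphisms (unconditionally). -/
theorem periodMap_mem_parabolicHoms (N : ℕ) (f : CuspForm (Gamma0 N) 2) :
    periodMap N f ∈ parabolicHoms ℂ (Gamma0 N) ℂ := by
  by_cases h : ∃ F : ℍ → ℂ, HasEquivariantPrimitive N f F
  · obtain ⟨F, hF⟩ := h
    obtain ⟨F₀, h₀, h₁⟩ := periodMap_def N f hF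
    rw [h₁]
    exact periodHom_mem_parabolicHoms N f F₀ h₀
  · have : periodMap N f = 0 := by
      unfold periodMap
      rw [dif_neg h]
    rw [this]
    exact Submodule.zero_mem _

/-- **A3d**: the range of `periodHomPair` is contained in the parabolic homomorphisms
(unconditionally). -/
theorem range_periodHomPair_le (N : ℕ) :
    LinearMap.range (periodHomPair N) ≤ parabolicHoms ℂ (Gamma0 N) ℂ := by
  by_cases h : ExistsPeriodMapLinear N
  · obtain ⟨pml, hpml, hpair⟩ := periodHomPair_def N h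
    rw [hpair]
    rintro φ ⟨⟨f, g⟩, rfl⟩
    have hf : pml f ∈ parabolicHoms ℂ (Gamma0 N) ℂ := by
      rw [hpml]; exact periodMap_mem_parabolicHoms N f
    have hg : pml g ∈ parabolicHoms ℂ (Gamma0 N) ℂ := by
      rw [hpml]; exact periodMap_mem_parabolicHoms N g
    have hf' := charInvolution_mem_parabolicHoms N ℂ ℂ hf
    have hg' := charInvolution_mem_parabolicHoms N ℂ ℂ hg
    simp only [LinearMap.coprod_apply, LinearMap.coe_comp, Function.comp_apply,
      LinearMap.add_apply, LinearMap.sub_apply, LinearMap.id_coe, id_eq]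
    exact Submodule.add_mem _ (Submodule.add_mem _ hf hf') (Submodule.sub_mem _ hg hg')
  · have : periodHomPair N = 0 := by
      unfold periodHomPair
      rw [dif_neg h]
    rw [this]
    rintro φ ⟨x, rfl⟩
    exact Submodule.zero_mem _

end Fermat.Agent.S21.H24
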