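import Mathlib
import Fermat.Prelude.Def_ModularCurve_PeriodHomPair
import Fermat.Agent.S21.H24.Parabolic
import Fermat.Agent.S21.H24.MaxMod

set_option autoImplicit false

open UpperHalfPlane CongruenceSubgroup Filter Topology Function ModularCurve ModularCurve.Period

open scoped MatrixGroups ComplexConjugate Manifold

namespace Fermat.Agent.S21.H24

/-! ### The anti-holomorphic involution `J` -/

theorem jConjSL_smul_J_smul (δ : SL(2, ℤ)) (w : ℍ) : jConjSL δ • (J • w) = J • (δ • w) := by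
  have h : ((jConjSL δ : SL(2, ℤ)) : GL (Fin 2) ℝ) * J = J * (δ : GL (Fin 2) ℝ) := by
    ext i j
    fin_cases i <;> fin_cases j <;> simp [Matrix.mul_apply, Fin.sum_univ_two]
  rw [ModularGroup.sl_moeb, ModularGroup.sl_moeb, ← mul_smul, ← mul_smul, h]

theorem im_J_smul (w : ℍ) : (J • w).im = w.im := by
  rw [← UpperHalfPlane.coe_im, coe_J_smul]
  simp

theorem tendsto_J_smul_atImInfty : Tendsto (fun w : ℍ => J • w) atImInfty atImInfty := by
  rw [atImInfty, tendsto_comap_iff]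
  have : (UpperHalfPlane.im ∘ fun w : ℍ => J • w) = UpperHalfPlane.im := by
    funext w
    simp only [Function.comp_apply]
    exact im_J_smul w
  rw [this]
  exact tendsto_comap

theorem J_smul_vadd (x : ℝ) (w : ℍ) : J • (x +ᵥ w) = (-x) +ᵥ (J • w) := by
  apply UpperHalfPlane.ext
  rw [coe_J_smul, UpperHalfPlane.coe_vadd, UpperHalfPlane.coe_vadd, coe_J_smul]
  simp
  ring

/-! ### Periodicity of translates of an equivariant primitive -/

theorem conj_T_zpow_one_zero (δ : SL(2, ℤ)) (m : ℤ) :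
    (δ * ModularGroup.T ^ m * δ⁻¹ : SL(2, ℤ)) 1 0 = -(δ 1 0 ^ 2 * m) := by
  simp only [Matrix.SpecialLinearGroup.coe_mul, ModularGroup.coe_T_zpow,
    Matrix.SpecialLinearGroup.coe_inv, Matrix.adjugate_fin_two, Matrix.mul_apply,
    Fin.sum_univ_two, Matrix.of_apply, Matrix.cons_val', Matrix.cons_val_zero,
    Matrix.cons_val_one, Matrix.empty_val', Matrix.cons_val_fin_one]
  ring

theorem conj_T_zpow_trace (δ : SL(2, ℤ)) (m : ℤ) :
    ((δ * ModularGroup.T ^ m * δ⁻¹ : SL(2, ℤ)) : Matrix (Fin 2) (Fin 2) ℤ).trace = 2 := by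
  have hdet : δ 0 0 * δ 1 1 - δ 0 1 * δ 1 0 = 1 := by
    have := δ.det_coe
    rw [Matrix.det_fin_two] at this
    exact this
  rw [Matrix.trace_fin_two]
  simp only [Matrix.SpecialLinearGroup.coe_mul, ModularGroup.coe_T_zpow,
    Matrix.SpecialLinearGroup.coe_inv, Matrix.adjugate_fin_two, Matrix.mul_apply,
    Fin.sum_univ_two, Matrix.of_apply, Matrix.cons_val', Matrix.cons_val_zero,
    Matrix.cons_val_one, Matrix.empty_val', Matrix.cons_val_fin_one]
  linear_combination 2 * hdet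

theorem apply_smul_T_zpow (N : ℕ) (f : CuspForm (Gamma0 N) 2) (F : ℍ → ℂ)
    (hF : HasEquivariantPrimitive N f F) (δ : SL(2, ℤ)) (k : ℤ) (w : ℍ) :
    F (δ • (ModularGroup.T ^ ((N : ℤ) * k) • w)) = F (δ • w) := by
  set γ₀ : SL(2, ℤ) := δ * ModularGroup.T ^ ((N : ℤ) * k) * δ⁻¹ with hγ₀
  have hmem : γ₀ ∈ Gamma0 N := by
    rw [Gamma0_mem, hγ₀, conj_T_zpow_one_zero]
    push_cast
    simp
  have htr : (((⟨γ₀, hmem⟩ : Gamma0 N) : SL(2, ℤ)) : Matrix (Fin 2) (Fin 2) ℤ).trace ^ 2 = 4 := by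
    show ((γ₀ : SL(2, ℤ)) : Matrix (Fin 2) (Fin 2) ℤ).trace ^ 2 = 4
    rw [hγ₀, conj_T_zpow_trace]
    norm_num
  have h0 := period_eq_zero_of_trace N f F hF ⟨γ₀, hmem⟩ htr
  have h1 := hF.2.2.1.sub_eq_period ⟨γ₀, hmem⟩ (δ • w)
  rw [h0] at h1
  have h2 : ((⟨γ₀, hmem⟩ : Gamma0 N) : SL(2, ℤ)) • (δ • w)
      = δ • (ModularGroup.T ^ ((N : ℤ) * k) • w) := by
    show γ₀ • (δ • w) = _
    rw [hγ₀, ← mul_smul, ← mul_smul]
    congr 1
    group
  rw [h2] at h1
  exact sub_eq_zero.mp h1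

theorem apply_smul_vadd (N : ℕ) (f : CuspForm (Gamma0 N) 2) (F : ℍ → ℂ)
    (hF : HasEquivariantPrimitive N f F) (δ : SL(2, ℤ)) (w : ℍ) :
    F (δ • ((N : ℝ) +ᵥ w)) = F (δ • w) := by
  have := apply_smul_T_zpow N f F hF δ 1 w
  rw [modular_T_zpow_smul] at this
  simpa using this

theorem apply_smul_neg_vadd (N : ℕ) (f : CuspForm (Gamma0 N) 2) (F : ℍ → ℂ)
    (hF : HasEquivariantPrimitive N f F) (δ : SL(2, ℤ)) (w : ℍ) :
    F (δ • ((-(N : ℝ)) +ᵥ w)) = F (δ • w) := by
  have := apply_smul_T_zpow N f F hF δ (-1) w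
  rw [modular_T_zpow_smul] at this
  simpa using this

theorem periodic_comp_ofComplex_of_vadd (g : ℍ → ℂ) (h : ℝ) (hg : ∀ w : ℍ, g (h +ᵥ w) = g w) :
    Periodic (g ∘ ofComplex) h := by
  intro w
  by_cases hw : 0 < w.im
  · have hw' : 0 < (w + h).im := by simpa using hw
    simp only [comp_apply, ofComplex_apply_of_im_pos hw', ofComplex_apply_of_im_pos hw]
    rw [← hg ⟨w, hw⟩]
    congr 1
    apply UpperHalfPlane.ext
    rw [UpperHalfPlane.coe_vadd]
    simp [add_comm]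
  · have hw0 : w.im ≤ 0 := not_lt.mp hw
    have hw' : (w + h).im ≤ 0 := by simpa using hw0
    simp [ofComplex_apply_of_im_nonpos hw', ofComplex_apply_of_im_nonpos hw0]

/-! ### The conjugate primitive -/

theorem hasDerivAt_conj_J (F : ℍ → ℂ) (f : ℍ → ℂ)
    (hF : ∀ τ : ℍ, HasDerivAt (F ∘ ofComplex) (f τ) ↑τ) (τ : ℍ) :
    HasDerivAt ((fun z : ℍ => conj (F (J • z))) ∘ ofComplex) (-conj (f (J • τ))) ↑τ := by
  have h1 := hF (J • τ)
  rw [coe_J_smul] at h1
  have h2 := h1.conj_conj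
  have h3 : conj (-conj (τ : ℂ)) = -(τ : ℂ) := by simp
  rw [h3] at h2
  have h4 : HasDerivAt ((conj ∘ (F ∘ ofComplex) ∘ conj) ∘ Neg.neg)
      (conj (f (J • τ)) * (-1)) (τ : ℂ) :=
    HasDerivAt.comp (τ : ℂ) h2 (hasDerivAt_neg (τ : ℂ))
  have h5 : (conj (f (J • τ)) * (-1) : ℂ) = -conj (f (J • τ)) := by ring
  rw [h5] at h4
  refine h4.congr_of_eventuallyEq ?_
  have hopen : {z : ℂ | 0 < z.im} ∈ 𝓝 (τ : ℂ) :=
    (isOpen_lt continuous_const Complex.continuous_im).mem_nhds τ.im_pos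
  filter_upwards [hopen] with z hz
  simp only [comp_apply]
  rw [J_smul, ofComplex_apply_of_im_pos hz]
  simp

/-- Core: if the real part of `a F + b conj(F ∘ J)` is `Γ₀(N)`-invariant then
`a f - b conj (f ∘ J) = 0`. -/
theorem comb_deriv_eq_zero (N : ℕ) [NeZero N] (f : CuspForm (Gamma0 N) 2) (F : ℍ → ℂ)
    (hF : HasEquivariantPrimitive N f F) (a b : ℂ)
    (hinv : ∀ γ ∈ Gamma0 N, ∀ z : ℍ,
      (a * F (γ • z) + b * conj (F (J • (γ • z)))).re = (a * F z + b * conj (F (J • z))).re)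
    (τ : ℍ) : a * f τ - b * conj (f (J • τ)) = 0 := by
  set u : ℍ → ℂ := fun z => a * F z + b * conj (F (J • z)) with hu
  set G : ℍ → ℂ := fun z => Complex.exp (u z) with hGdef
  have hderiv_u : ∀ σ : ℍ,
      HasDerivAt (u ∘ ofComplex) (a * f σ + b * (-conj (f (J • σ)))) ↑σ := by
    intro σ
    have h1 := (hF.1 σ).const_mul a
    have h2 := (hasDerivAt_conj_J F f hF.1 σ).const_mul b
    exact h1.add h2
  have hderiv_G : ∀ σ : ℍ, HasDerivAt (G ∘ ofComplex)
      (Complex.exp ((u ∘ ofComplex) ↑σ) * (a * f σ + b * (-conj (f (J • σ))))) ↑σ := by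
    intro σ
    exact (hderiv_u σ).cexp
  have hG : MDiff G := by
    intro σ
    exact UpperHalfPlane.mdifferentiableAt_iff.mpr (hderiv_G σ).differentiableAt
  have hnorm : ∀ γ ∈ Gamma0 N, ∀ z : ℍ, ‖G (γ • z)‖ = ‖G z‖ := by
    intro γ hγ z
    simp only [hGdef, hu, Complex.norm_exp]
    rw [hinv γ hγ z]
  have hN : (0 : ℝ) < (N : ℝ) := by exact_mod_cast Nat.pos_of_ne_zero (NeZero.ne N)
  have hper : ∀ δ : SL(2, ℤ), ∃ h : ℝ, 0 < h ∧
      Periodic ((fun w : ℍ => G (δ • w)) ∘ ofComplex) h := by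
    intro δ
    refine ⟨N, hN, periodic_comp_ofComplex_of_vadd _ _ (fun w => ?_)⟩
    simp only [hGdef, hu]
    have e1 : F (δ • ((N : ℝ) +ᵥ w)) = F (δ • w) := apply_smul_vadd N f F hF δ w
    have e2 : F (J • (δ • ((N : ℝ) +ᵥ w))) = F (J • (δ • w)) := by
      rw [← jConjSL_smul_J_smul, J_smul_vadd, apply_smul_neg_vadd N f F hF, jConjSL_smul_J_smul]
    rw [e1, e2]
  have hlim : ∀ δ : SL(2, ℤ), ∃ L : ℂ, Tendsto (fun w : ℍ => G (δ • w)) atImInfty (𝓝 L) := by
    intro δ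
    obtain ⟨L₁, hL₁⟩ := hF.2.2.2 δ
    obtain ⟨L₂, hL₂⟩ := hF.2.2.2 (jConjSL δ)
    have hL₂' : Tendsto (fun w : ℍ => F (J • (δ • w))) atImInfty (𝓝 L₂) := by
      have := hL₂.comp tendsto_J_smul_atImInfty
      refine this.congr (fun w => ?_)
      simp only [comp_apply]
      rw [jConjSL_smul_J_smul]
    refine ⟨Complex.exp (a * L₁ + b * conj L₂), ?_⟩
    have hc : Tendsto (fun w : ℍ => conj (F (J • (δ • w)))) atImInfty (𝓝 (conj L₂)) :=
      (Complex.continuous_conj.tendsto L₂).comp hL₂'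
    exact ((hL₁.const_mul a).add (hc.const_mul b)).cexp
  obtain ⟨c, hc⟩ := eq_const_of_norm_invariant (Gamma0 N) G hG hnorm hper hlim
  have hconst : HasDerivAt (G ∘ ofComplex) 0 (τ : ℂ) := by
    have : G ∘ ofComplex = fun _ => c := by
      funext z
      exact hc _
    rw [this]
    exact hasDerivAt_const _ _
  have huniq := (hderiv_G τ).unique hconst
  have hne : Complex.exp ((u ∘ ofComplex) ↑τ) ≠ 0 := Complex.exp_ne_zero _
  have := (mul_eq_zero.mp huniq).resolve_left hne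
  linear_combination this

/-- If `F + ε (F ∘ J)` is `Γ₀(N)`-invariant (`ε` real), then `f = 0`. -/
theorem eq_zero_of_invariant (N : ℕ) [NeZero N] (f : CuspForm (Gamma0 N) 2) (F : ℍ → ℂ)
    (hF : HasEquivariantPrimitive N f F) (ε : ℝ)
    (hH : ∀ γ ∈ Gamma0 N, ∀ z : ℍ,
      F (γ • z) + ε * F (J • (γ • z)) = F z + ε * F (J • z)) : f = 0 := by
  have h1 : ∀ τ : ℍ, (1 : ℂ) * f τ - (ε : ℂ) * conj (f (J • τ)) = 0 := by
    intro τ
    refine comb_deriv_eq_zero N f F hF 1 ε (fun γ hγ z => ?_) τ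
    have := congrArg Complex.re (hH γ hγ z)
    simp only [Complex.add_re, Complex.mul_re, Complex.ofReal_re, Complex.ofReal_im, zero_mul,
      sub_zero, Complex.conj_re, one_mul] at this ⊢
    exact this
  have h2 : ∀ τ : ℍ, (-Complex.I) * f τ - (Complex.I * ε) * conj (f (J • τ)) = 0 := by
    intro τ
    refine comb_deriv_eq_zero N f F hF (-Complex.I) (Complex.I * ε) (fun γ hγ z => ?_) τ
    have := congrArg Complex.im (hH γ hγ z)
    simp only [Complex.add_im, Complex.mul_im, Complex.ofReal_re, Complex.ofReal_im, zero_mul,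
      add_zero] at this
    simp only [Complex.add_re, Complex.mul_re, Complex.neg_re, Complex.neg_im, Complex.I_re,
      Complex.I_im, Complex.ofReal_re, Complex.ofReal_im, Complex.conj_re, Complex.conj_im,
      Complex.mul_im]
    linarith
  ext τ
  have e1 := h1 τ
  have e2 := h2 τ
  have : (2 : ℂ) * f τ = 0 := by
    linear_combination e1 + Complex.I * e2 + (f τ + ε * conj (f (J • τ))) * Complex.I_sq
  simpa using this

/-! ### Injectivity -/

theorem period_jConj (N : ℕ) (f : CuspForm (Gamma0 N) 2) (F : ℍ → ℂ)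
    (hF : HasEquivariantPrimitive N f F) (γ : Gamma0 N) (z : ℍ) :
    hF.2.2.1.period (jConjGamma0 N γ) = F (J • ((γ : SL(2, ℤ)) • z)) - F (J • z) := by
  rw [← hF.2.2.1.sub_eq_period (jConjGamma0 N γ) (J • z), jConjGamma0_coe, jConjSL_smul_J_smul]

/-- **A4b** (plus sign). -/
theorem eq_zero_of_periodHom_add (N : ℕ) [NeZero N] (f : CuspForm (Gamma0 N) 2) (F : ℍ → ℂ)
    (hF : HasEquivariantPrimitive N f F)
    (h : hF.2.2.1.periodHom + charInvolution N ℂ ℂ hF.2.2.1.periodHom = 0) : f = 0 := by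
  refine eq_zero_of_invariant N f F hF 1 (fun γ hγ z => ?_)
  have h1 := DFunLike.congr_fun h (Additive.ofMul (⟨γ, hγ⟩ : Gamma0 N))
  simp only [AddMonoidHom.add_apply, charInvolution_apply, toMul_ofMul,
    IsEquivariantPrimitive.periodHom_apply, AddMonoidHom.zero_apply] at h1
  rw [period_jConj N f F hF ⟨γ, hγ⟩ z, ← hF.2.2.1.sub_eq_period ⟨γ, hγ⟩ z] at h1
  push_cast
  linear_combination h1

/-- **A4b** (minus sign). -/
theorem eq_zero_of_periodHom_sub (N : ℕ) [NeZero N] (f : CuspForm (Gamma0 N) 2) (F : ℍ → ℂ)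
    (hF : HasEquivariantPrimitive N f F)
    (h : hF.2.2.1.periodHom - charInvolution N ℂ ℂ hF.2.2.1.periodHom = 0) : f = 0 := by
  refine eq_zero_of_invariant N f F hF (-1) (fun γ hγ z => ?_)
  have h1 := DFunLike.congr_fun h (Additive.ofMul (⟨γ, hγ⟩ : Gamma0 N))
  simp only [AddMonoidHom.sub_apply, charInvolution_apply, toMul_ofMul,
    IsEquivariantPrimitive.periodHom_apply, AddMonoidHom.zero_apply] at h1
  rw [period_jConj N f F hF ⟨γ, hγ⟩ z, ← hF.2.2.1.sub_eq_period ⟨γ, hγ⟩ z] at h1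
  push_cast
  linear_combination h1

/-- **A4c**: injectivity of `periodHomPair`, given existence of primitives and linearity of the
period map. -/
theorem injective_periodHomPair (N : ℕ) [NeZero N] (hlin : ExistsPeriodMapLinear N)
    (hex : ∀ f : CuspForm (Gamma0 N) 2, ∃ F : ℍ → ℂ, HasEquivariantPrimitive N f F) :
    Function.Injective (periodHomPair N) := by
  obtain ⟨pml, hpml, hpair⟩ := periodHomPair_def N hlin
  rw [injective_iff_map_eq_zero]
  rintro ⟨f, g⟩ h
  rw [hpair] at h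
  simp only [LinearMap.coprod_apply, LinearMap.coe_comp, Function.comp_apply,
    LinearMap.add_apply, LinearMap.sub_apply, LinearMap.id_coe, id_eq] at h
  -- apply the involution
  have h' : charInvolution N ℂ ℂ (pml f) + pml f
      + (charInvolution N ℂ ℂ (pml g) - pml g) = 0 := by
    have := congrArg (charInvolution N ℂ ℂ) h
    simpa only [map_add, map_sub, charInvolution_charInvolution, map_zero] using this
  have hA : pml f + charInvolution N ℂ ℂ (pml f) = 0 := by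
    have h2 : (pml f + charInvolution N ℂ ℂ (pml f)) + (pml f + charInvolution N ℂ ℂ (pml f))
        = 0 := by
      calc (pml f + charInvolution N ℂ ℂ (pml f)) + (pml f + charInvolution N ℂ ℂ (pml f))
          = (pml f + charInvolution N ℂ ℂ (pml f) + (pml g - charInvolution N ℂ ℂ (pml g)))
            + (charInvolution N ℂ ℂ (pml f) + pml f
              + (charInvolution N ℂ ℂ (pml g) - pml g)) := by abel
        _ = 0 := by rw [h, h', add_zero]
    refine AddMonoidHom.ext fun x => ?_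
    have := DFunLike.congr_fun h2 x
    simp only [AddMonoidHom.add_apply, AddMonoidHom.zero_apply] at this ⊢
    have h3 : (2 : ℂ) * ((pml f) x + (charInvolution N ℂ ℂ (pml f)) x) = 0 := by
      linear_combination this
    simpa using h3
  have hB : pml g - charInvolution N ℂ ℂ (pml g) = 0 := by
    have := h
    rw [hA, zero_add] at this
    exact this
  obtain ⟨F₁, hF₁⟩ := hex f
  obtain ⟨F₁', hF₁', e₁⟩ := periodMap_def N f hF₁
  obtain ⟨F₂, hF₂⟩ := hex g
  obtain ⟨F₂', hF₂', e₂⟩ := periodMap_def N g hF₂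
  rw [hpml f, e₁] at hA
  rw [hpml g, e₂] at hB
  have hf := eq_zero_of_periodHom_add N f F₁' hF₁' hA
  have hg := eq_zero_of_periodHom_sub N g F₂' hF₂' hB
  rw [hf, hg]
  rfl

end Fermat.Agent.S21.H24
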